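import Fermat.Agent.S55.H119.ResCoresRep

/-!
# Corollaries of restriction–corestriction in degrees 1 and 2 (helper119)

* `Hⁿ(G, A)` is killed by `|G|` (`n = 1, 2`, `G` finite);
* Sylow criterion: a class whose restrictions to one Sylow `p`-subgroup for each prime `p`
  vanish is zero;
* the `p`-primary part of `Hⁿ(G, A)` injects into `Hⁿ(P, A)`, `P` a Sylow `p`-subgroup.
-/

set_option autoImplicit false
set_option linter.style.haveILetI false

namespace Fermat.Agent.S55.H119

open groupCohomology Rep CategoryTheory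

section Abstract

variable {G : Type*} [Group G] {M : Type*} [AddCommGroup M]

/-- An element killed by the index of a Sylow `p`-subgroup for every prime `p` is zero. -/
theorem eq_zero_of_forall_sylow_index_nsmul [Finite G] (x : M)
    (h : ∀ p : ℕ, p.Prime → ∃ P : Sylow p G, (P : Subgroup G).index • x = 0) : x = 0 := by
  by_contra hx
  have h1 : addOrderOf x ≠ 1 := fun h1 => hx (AddMonoid.addOrderOf_eq_one_iff.mp h1)
  obtain ⟨q, hq, hqd⟩ := Nat.exists_prime_and_dvd h1
  haveI : Fact q.Prime := ⟨hq⟩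
  obtain ⟨P, hP⟩ := h q hq
  have h2 : addOrderOf x ∣ (P : Subgroup G).index := addOrderOf_dvd_of_nsmul_eq_zero hP
  exact P.not_dvd_index (hqd.trans h2)

/-- An element killed by a power of `p` and by the index of a Sylow `p`-subgroup is zero. -/
theorem eq_zero_of_pow_nsmul_of_sylow_index_nsmul [Finite G] {p : ℕ} [Fact p.Prime]
    (P : Sylow p G) (x : M) (k : ℕ) (h1 : p ^ k • x = 0)
    (h2 : (P : Subgroup G).index • x = 0) : x = 0 := by
  have hcop : Nat.Coprime (p ^ k) (P : Subgroup G).index :=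
    Nat.Coprime.pow_left k ((Nat.Prime.coprime_iff_not_dvd Fact.out).mpr P.not_dvd_index)
  have h3 : addOrderOf x ∣ Nat.gcd (p ^ k) (P : Subgroup G).index :=
    Nat.dvd_gcd (addOrderOf_dvd_of_nsmul_eq_zero h1) (addOrderOf_dvd_of_nsmul_eq_zero h2)
  rw [hcop.gcd_eq_one, Nat.dvd_one] at h3
  exact AddMonoid.addOrderOf_eq_one_iff.mp h3

end Abstract

section Concrete

variable {G : Type*} [Group G] {A : Type*} [AddCommGroup A] [DistribMulAction G A]

/-- 1-cocycles of a finite group are killed by the order of the group, up to coboundaries. -/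
theorem isCoboundary₁_card_nsmul [Finite G] {f : G → A} (hf : IsCocycle₁ f) :
    IsCoboundary₁ (fun g => Nat.card G • f g) := by
  have h := isCoboundary₁_index_nsmul (⊥ : Subgroup G) hf (by
    refine ⟨0, fun h => ?_⟩
    have h1 : (h : G) = 1 := Subgroup.mem_bot.mp h.2
    simp [h1, map_one_of_isCocycle₁ hf])
  rwa [Subgroup.index_bot] at h

/-- 2-cocycles of a finite group are killed by the order of the group, up to coboundaries. -/
theorem isCoboundary₂_card_nsmul [Finite G] {f : G × G → A} (hf : IsCocycle₂ f) :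
    IsCoboundary₂ (fun p => Nat.card G • f p) := by
  have h := isCoboundary₂_index_nsmul (⊥ : Subgroup G) hf (by
    refine ⟨fun _ => f (1, 1), fun h₁ h₂ => ?_⟩
    have h1 : (h₁ : G) = 1 := Subgroup.mem_bot.mp h₁.2
    have h2 : (h₂ : G) = 1 := Subgroup.mem_bot.mp h₂.2
    simp [h1, h2, Subgroup.smul_def])
  rwa [Subgroup.index_bot] at h

end Concrete

section Rep

universe u

variable {k G : Type u} [CommRing k] [Group G] (A : Rep k G)

theorem card_nsmul_eq_zero_one [Finite G] (x : H1 A) : Nat.card G • x = 0 := by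
  letI := repDistribMulAction A
  induction x using H1_induction_on with
  | h c =>
    rw [← map_nsmul, H1π_eq_zero_iff]
    have hc : IsCocycle₁ (c : G → A.V) := fun g h => (mem_cocycles₁_iff (c : G → A.V)).1 c.2 g h
    obtain ⟨z, hz⟩ := isCoboundary₁_card_nsmul hc
    exact ⟨z, funext fun g => hz g⟩

theorem card_nsmul_eq_zero_two [Finite G] (x : H2 A) : Nat.card G • x = 0 := by
  letI := repDistribMulAction A
  induction x using H2_induction_on with
  | h c =>
    rw [← map_nsmul, H2π_eq_zero_iff]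
    have hc : IsCocycle₂ (c : G × G → A.V) :=
      fun g h j => (mem_cocycles₂_iff (c : G × G → A.V)).1 c.2 g h j
    obtain ⟨z, hz⟩ := isCoboundary₂_card_nsmul hc
    exact ⟨z, funext fun g => hz g.1 g.2⟩

/-- **Sylow criterion, degree 1.** -/
theorem eq_zero_of_forall_sylow_resMap_eq_zero_one [Finite G] (x : H1 A)
    (h : ∀ p : ℕ, p.Prime → ∃ P : Sylow p G, resMap A (P : Subgroup G) 1 x = 0) : x = 0 :=
  eq_zero_of_forall_sylow_index_nsmul (G := G) x fun p hp => by
    obtain ⟨P, hP⟩ := h p hp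
    exact ⟨P, index_nsmul_eq_zero_of_resMap_eq_zero_one A (P : Subgroup G) x hP⟩

/-- **Sylow criterion, degree 2.** -/
theorem eq_zero_of_forall_sylow_resMap_eq_zero_two [Finite G] (x : H2 A)
    (h : ∀ p : ℕ, p.Prime → ∃ P : Sylow p G, resMap A (P : Subgroup G) 2 x = 0) : x = 0 :=
  eq_zero_of_forall_sylow_index_nsmul (G := G) x fun p hp => by
    obtain ⟨P, hP⟩ := h p hp
    exact ⟨P, index_nsmul_eq_zero_of_resMap_eq_zero_two A (P : Subgroup G) x hP⟩

/-- The `p`-primary part of `H¹(G, A)` injects into `H¹(P, A)` for a Sylow `p`-subgroup `P`. -/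
theorem eq_zero_of_pow_nsmul_of_resMap_sylow_one [Finite G] {p : ℕ} [Fact p.Prime]
    (P : Sylow p G) (x : H1 A) (k : ℕ) (h1 : p ^ k • x = 0)
    (h2 : resMap A (P : Subgroup G) 1 x = 0) : x = 0 :=
  eq_zero_of_pow_nsmul_of_sylow_index_nsmul P x k h1
    (index_nsmul_eq_zero_of_resMap_eq_zero_one A (P : Subgroup G) x h2)

/-- The `p`-primary part of `H²(G, A)` injects into `H²(P, A)` for a Sylow `p`-subgroup `P`. -/
theorem eq_zero_of_pow_nsmul_of_resMap_sylow_two [Finite G] {p : ℕ} [Fact p.Prime]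
    (P : Sylow p G) (x : H2 A) (k : ℕ) (h1 : p ^ k • x = 0)
    (h2 : resMap A (P : Subgroup G) 2 x = 0) : x = 0 :=
  eq_zero_of_pow_nsmul_of_sylow_index_nsmul P x k h1
    (index_nsmul_eq_zero_of_resMap_eq_zero_two A (P : Subgroup G) x h2)

end Rep

end Fermat.Agent.S55.H119
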