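import Mathlib

/-!
# Restriction–corestriction in degree 2 (helper119, S55 layer T leaf)

`G` a group, `H ≤ G` of finite index, `A` a `G`-module.  If a 2-cocycle `f : G × G → A`
restricts to a coboundary on `H`, then `[G : H] • f` is a coboundary on `G`.

Proof: pass to homogeneous cochains, extend the trivialisation on `H` to an `H`-equivariant
trivialisation on `G` (prism operator for an `H`-equivariant retraction `G → H`), and take the
transfer.
-/

set_option autoImplicit false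
set_option linter.style.haveILetI false

namespace Fermat.Agent.S55.H119

open groupCohomology

variable {G : Type*} [Group G] {A : Type*} [AddCommGroup A] [DistribMulAction G A]

/-- homogeneous version of an inhomogeneous 2-cochain -/
def hom₂ (f : G × G → A) (x0 x1 x2 : G) : A := x0 • f (x0⁻¹ * x1, x1⁻¹ * x2)

/-- homogeneous version of an inhomogeneous 1-cochain -/
def hom₁ (u : G → A) (x0 x1 : G) : A := x0 • u (x0⁻¹ * x1)

theorem hom₂_mul (f : G × G → A) (g x0 x1 x2 : G) :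
    hom₂ f (g * x0) (g * x1) (g * x2) = g • hom₂ f x0 x1 x2 := by
  simp only [hom₂, mul_inv_rev, mul_smul]
  congr 3
  group

theorem hom₂_one (f : G × G → A) (g h : G) : hom₂ f 1 g (g * h) = f (g, h) := by
  simp [hom₂]

theorem hom₂_cocycle {f : G × G → A} (hf : IsCocycle₂ f) (x0 x1 x2 x3 : G) :
    hom₂ f x1 x2 x3 - hom₂ f x0 x2 x3 + hom₂ f x0 x1 x3 - hom₂ f x0 x1 x2 = 0 := by
  have h := hf (x0⁻¹ * x1) (x1⁻¹ * x2) (x2⁻¹ * x3)
  have e1 : x0⁻¹ * x1 * (x1⁻¹ * x2) = x0⁻¹ * x2 := by group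
  have e2 : x1⁻¹ * x2 * (x2⁻¹ * x3) = x1⁻¹ * x3 := by group
  rw [e1, e2] at h
  have h' : x1 • f (x1⁻¹ * x2, x2⁻¹ * x3) =
      x0 • ((x0⁻¹ * x1) • f (x1⁻¹ * x2, x2⁻¹ * x3)) := by
    rw [← mul_smul]; congr 1; group
  simp only [hom₂]
  rw [h', ← smul_sub, ← smul_add, ← smul_sub, ← smul_zero x0]
  congr 1
  have h2 : (x0⁻¹ * x1) • f (x1⁻¹ * x2, x2⁻¹ * x3) =
      f (x0⁻¹ * x2, x2⁻¹ * x3) + f (x0⁻¹ * x1, x1⁻¹ * x2) - f (x0⁻¹ * x1, x1⁻¹ * x3) := by
    rw [h]; abel
  rw [h2]; abel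

/-- An `H`-equivariant retraction-like map `G → H`. -/
theorem exists_equivariant_map (H : Subgroup G) :
    ∃ π : G → H, ∀ (h : H) (x : G), π (h * x) = h * π x := by
  classical
  let r : G → G := fun x => (Quotient.mk'' x : Quotient (QuotientGroup.rightRel H)).out
  have hr : ∀ x, x * (r x)⁻¹ ∈ H := by
    intro x
    have h1 : (Quotient.mk'' (r x) : Quotient (QuotientGroup.rightRel H)) = Quotient.mk'' x :=
      Quotient.out_eq' _
    have h2 := Quotient.exact' h1
    rwa [QuotientGroup.rightRel_apply] at h2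
  have hr' : ∀ (h : H) (x : G), r (h * x) = r x := by
    intro h x
    have : (Quotient.mk'' ((h : G) * x) : Quotient (QuotientGroup.rightRel H)) =
        Quotient.mk'' x := by
      apply Quotient.sound'
      rw [QuotientGroup.rightRel_apply]
      simp
    simp only [r, this]
  refine ⟨fun x => ⟨x * (r x)⁻¹, hr x⟩, fun h x => ?_⟩
  apply Subtype.ext
  simp only [Subgroup.coe_mul, hr' h x, mul_assoc]

section Transfer

variable (H : Subgroup G) [H.FiniteIndex]

/-- **Restriction–corestriction, degree 2**: if the restriction to a finite index subgroup `H`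
of a 2-cocycle `f` is a coboundary, then `[G : H] • f` is a coboundary. -/
theorem isCoboundary₂_index_nsmul {f : G × G → A}
    (hf : IsCocycle₂ f) (hres : IsCoboundary₂ (fun p : H × H => f ((p.1 : G), (p.2 : G)))) :
    IsCoboundary₂ (fun p => H.index • f p) := by
  classical
  obtain ⟨φ, hφ⟩ := hres
  obtain ⟨π, hπ⟩ := exists_equivariant_map H
  -- homogeneous versions
  set F : G → G → G → A := hom₂ f with hFdef
  have hFmul : ∀ g x0 x1 x2, F (g * x0) (g * x1) (g * x2) = g • F x0 x1 x2 := hom₂_mul f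
  have hFco : ∀ x0 x1 x2 x3, F x1 x2 x3 - F x0 x2 x3 + F x0 x1 x3 - F x0 x1 x2 = 0 :=
    hom₂_cocycle hf
  let Φ : H → H → A := fun h0 h1 => (h0 : G) • φ (h0⁻¹ * h1)
  have hΦmul : ∀ (h h0 h1 : H), Φ (h * h0) (h * h1) = (h : G) • Φ h0 h1 := by
    intro h h0 h1
    simp only [Φ, Subgroup.coe_mul, mul_smul]
    congr 3
    group
  have hΦd : ∀ h0 h1 h2 : H, Φ h1 h2 - Φ h0 h2 + Φ h0 h1 = F h0 h1 h2 := by
    intro h0 h1 h2
    have h := hφ (h0⁻¹ * h1) (h1⁻¹ * h2)
    simp only [Subgroup.smul_def, Subgroup.coe_mul, Subgroup.coe_inv] at h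
    have e1 : h0⁻¹ * h1 * (h1⁻¹ * h2) = h0⁻¹ * h2 := by group
    rw [e1] at h
    simp only [Φ, hFdef, hom₂]
    rw [← h]
    have h' : (h1 : G) • φ (h1⁻¹ * h2) = (h0 : G) • (((h0 : G)⁻¹ * h1) • φ (h1⁻¹ * h2)) := by
      rw [← mul_smul]; congr 1; group
    rw [h', smul_add, smul_sub]
  -- the `H`-equivariant trivialisation on `G`
  let Ψ : G → G → A := fun x0 x1 =>
    Φ (π x0) (π x1) + F (π x0) x0 x1 - F (π x0) (π x1) x1
  have hΨmul : ∀ (h : H) (x0 x1 : G), Ψ (h * x0) (h * x1) = (h : G) • Ψ x0 x1 := by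
    intro h x0 x1
    simp only [Ψ, hπ, hΦmul, Subgroup.coe_mul, hFmul, smul_add, smul_sub]
  have hΨd : ∀ x0 x1 x2 : G, Ψ x1 x2 - Ψ x0 x2 + Ψ x0 x1 = F x0 x1 x2 := by
    intro x0 x1 x2
    have c1 := hFco (π x0) (π x1) (π x2) x2
    have c2 := hFco (π x0) (π x1) x1 x2
    have c3 := hFco (π x0) x0 x1 x2
    have c0 := hΦd (π x0) (π x1) (π x2)
    simp only [Ψ]
    linear_combination (norm := abel) c0 - c1 + c2 - c3
  -- the transfer of `Ψ`
  letI : Fintype (G ⧸ H) := Subgroup.fintypeQuotientOfFiniteIndex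
  let T : G → G → G → A := fun x0 x1 y => y • Ψ (y⁻¹ * x0) (y⁻¹ * x1)
  have hT : ∀ (x0 x1 y : G) (h : H), T x0 x1 (y * h) = T x0 x1 y := by
    intro x0 x1 y h
    have h1 := hΨmul h⁻¹ (y⁻¹ * x0) (y⁻¹ * x1)
    simp only [T, mul_inv_rev, mul_smul, mul_assoc]
    simp only [Subgroup.coe_inv] at h1
    rw [h1, smul_inv_smul]
  let Tbar : G → G → G ⧸ H → A := fun x0 x1 c => T x0 x1 c.out
  have hTbar : ∀ (x0 x1 y : G), Tbar x0 x1 (y : G ⧸ H) = T x0 x1 y := by
    intro x0 x1 y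
    have h1 : (((y : G ⧸ H)).out : G ⧸ H) = (y : G ⧸ H) := Quotient.out_eq' _
    rw [QuotientGroup.eq] at h1
    have h2 := hT x0 x1 (y : G ⧸ H).out ⟨_, h1⟩
    simp only [mul_inv_cancel_left] at h2
    exact h2.symm
  let U : G → G → A := fun x0 x1 => ∑ c : G ⧸ H, Tbar x0 x1 c
  have hUmul : ∀ g x0 x1 : G, U (g * x0) (g * x1) = g • U x0 x1 := by
    intro g x0 x1
    have h1 : ∀ c : G ⧸ H, Tbar (g * x0) (g * x1) c = g • Tbar x0 x1 (g⁻¹ • c) := by
      intro c
      induction c using QuotientGroup.induction_on with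
      | H y =>
        have e : (g⁻¹ • (y : G ⧸ H)) = ((g⁻¹ * y : G) : G ⧸ H) := rfl
        rw [e, hTbar, hTbar]
        simp only [T, mul_inv_rev, inv_inv, mul_smul, smul_inv_smul, mul_assoc]
    simp only [U]
    rw [Finset.smul_sum, Finset.sum_congr rfl (fun c _ => h1 c)]
    exact Equiv.sum_comp (MulAction.toPerm g⁻¹ : G ⧸ H ≃ G ⧸ H) (fun c => g • Tbar x0 x1 c)
  have hUd : ∀ x0 x1 x2 : G, U x1 x2 - U x0 x2 + U x0 x1 = H.index • F x0 x1 x2 := by
    intro x0 x1 x2
    have h1 : ∀ c : G ⧸ H, Tbar x1 x2 c - Tbar x0 x2 c + Tbar x0 x1 c = F x0 x1 x2 := by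
      intro c
      induction c using QuotientGroup.induction_on with
      | H y =>
        rw [hTbar, hTbar, hTbar]
        simp only [T]
        rw [← smul_sub, ← smul_add, hΨd, ← hFmul]
        simp only [mul_inv_cancel_left]
    simp only [U]
    rw [← Finset.sum_sub_distrib, ← Finset.sum_add_distrib, Finset.sum_congr rfl (fun c _ => h1 c),
      Finset.sum_const, Finset.card_univ, Subgroup.index_eq_card, Nat.card_eq_fintype_card]
  refine ⟨fun g => U 1 g, fun g h => ?_⟩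
  have h1 := hUd 1 g (g * h)
  have h2 := hUmul g 1 h
  rw [mul_one] at h2
  rw [hFdef, hom₂_one] at h1
  show g • U 1 h - U 1 (g * h) + U 1 g = H.index • f (g, h)
  rw [← h2, h1]

end Transfer

end Fermat.Agent.S55.H119
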