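import Fermat.Agent.S55.H119.ResCores1
import Fermat.Agent.S55.H119.ResCores2

/-!
# Restriction–corestriction for `groupCohomology` in degrees 1 and 2 (helper119)

For `A : Rep k G`, `H ≤ G` of finite index and `x ∈ Hⁿ(G, A)` (`n = 1, 2`) with
`res_H x = 0`, we have `[G : H] • x = 0`.
-/

set_option autoImplicit false
set_option linter.style.haveILetI false

namespace Fermat.Agent.S55.H119

open groupCohomology Rep CategoryTheory

universe u

variable {k G : Type u} [CommRing k] [Group G] (A : Rep k G) (H : Subgroup G)

/-- The restriction map `Hⁿ(G, A) ⟶ Hⁿ(H, A)`. -/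
noncomputable abbrev resMap (n : ℕ) :
    groupCohomology A n ⟶ groupCohomology (res H.subtype A) n :=
  groupCohomology.map H.subtype (𝟙 (res H.subtype A)) n

/-- The `G`-action on the underlying module of a representation, as a `DistribMulAction`
(not an instance). -/
@[reducible] noncomputable def repDistribMulAction : DistribMulAction G A.V :=
  DistribMulAction.compHom A.V (A.ρ : G →* Module.End k A.V)

theorem repDistribMulAction_smul (g : G) (a : A.V) :
    letI := repDistribMulAction A
    g • a = A.ρ g a := rfl

variable [H.FiniteIndex]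

theorem index_nsmul_eq_zero_of_resMap_eq_zero_one (x : H1 A)
    (hx : resMap A H 1 x = 0) : H.index • x = 0 := by
  letI := repDistribMulAction A
  induction x using H1_induction_on with
  | h c =>
    rw [resMap, H1π_comp_map_apply, H1π_eq_zero_iff] at hx
    rw [← map_nsmul, H1π_eq_zero_iff]
    obtain ⟨y, hy⟩ := hx
    have hc : IsCocycle₁ (c : G → A.V) := fun g h => (mem_cocycles₁_iff (c : G → A.V)).1 c.2 g h
    have hres : IsCoboundary₁ (fun h : H => (c : G → A.V) (h : G)) := by
      refine ⟨y, fun h => ?_⟩
      have := congrFun hy h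
      exact this
    obtain ⟨z, hz⟩ := isCoboundary₁_index_nsmul H hc hres
    refine ⟨z, funext fun g => ?_⟩
    exact hz g

theorem index_nsmul_eq_zero_of_resMap_eq_zero_two (x : H2 A)
    (hx : resMap A H 2 x = 0) : H.index • x = 0 := by
  letI := repDistribMulAction A
  induction x using H2_induction_on with
  | h c =>
    rw [resMap, H2π_comp_map_apply, H2π_eq_zero_iff] at hx
    rw [← map_nsmul, H2π_eq_zero_iff]
    obtain ⟨y, hy⟩ := hx
    have hc : IsCocycle₂ (c : G × G → A.V) :=
      fun g h j => (mem_cocycles₂_iff (c : G × G → A.V)).1 c.2 g h j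
    have hres : IsCoboundary₂ (fun p : H × H => (c : G × G → A.V) ((p.1 : G), (p.2 : G))) := by
      refine ⟨y, fun h₁ h₂ => ?_⟩
      have := congrFun hy (h₁, h₂)
      exact this
    obtain ⟨z, hz⟩ := isCoboundary₂_index_nsmul H hc hres
    refine ⟨z, funext fun g => ?_⟩
    exact hz g.1 g.2

end Fermat.Agent.S55.H119
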