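import Mathlib

/-!
# Restriction–corestriction in degree 1 (helper119, S55 layer T leaf)

`G` a group, `H ≤ G` of finite index, `A` a `G`-module.  If a 1-cocycle `f : G → A` restricts
to a coboundary on `H`, then `[G : H] • f` is a coboundary on `G`.

Everything is stated with Mathlib's concrete predicates `groupCohomology.IsCocycle₁` and
`groupCohomology.IsCoboundary₁`.
-/

set_option autoImplicit false
set_option linter.style.haveILetI false

namespace Fermat.Agent.S55.H119

open groupCohomology

variable {G : Type*} [Group G] {A : Type*} [AddCommGroup A] [DistribMulAction G A]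

/-- the coboundary of `x : A` is a 1-cocycle -/
theorem isCocycle₁_d (x : A) : IsCocycle₁ (fun g : G => g • x - x) := by
  intro g h
  simp only [mul_smul, smul_sub]
  abel

theorem IsCocycle₁.sub {f f' : G → A} (hf : IsCocycle₁ f) (hf' : IsCocycle₁ f') :
    IsCocycle₁ (fun g => f g - f' g) := by
  intro g h
  simp only [hf g h, hf' g h, smul_sub]
  abel

/-- **Restriction–corestriction, degree 1**: if the restriction to a finite index subgroup `H`
of a 1-cocycle `f` is a coboundary, then `[G : H] • f` is a coboundary. -/
theorem isCoboundary₁_index_nsmul (H : Subgroup G) [H.FiniteIndex] {f : G → A}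
    (hf : IsCocycle₁ f) (hres : IsCoboundary₁ (fun h : H => f (h : G))) :
    IsCoboundary₁ (fun g => H.index • f g) := by
  classical
  obtain ⟨x, hx⟩ := hres
  -- normalise: `f'` vanishes on `H`
  set f' : G → A := fun g => f g - (g • x - x) with hf'def
  have hf' : IsCocycle₁ f' := IsCocycle₁.sub hf (isCocycle₁_d x)
  have hf'H : ∀ h : H, f' (h : G) = 0 := by
    intro h
    have := hx h
    simp only [hf'def, Subgroup.smul_def] at this ⊢
    rw [← this, sub_self]
  have hconst : ∀ (g : G) (h : H), f' (g * h) = f' g := by
    intro g h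
    rw [hf' g h, hf'H h, smul_zero, zero_add]
  -- `f'` factors through `G ⧸ H`
  let F : G ⧸ H → A := fun c => f' c.out
  have hF : ∀ g : G, F (g : G ⧸ H) = f' g := by
    intro g
    have h1 : ((g : G ⧸ H).out : G ⧸ H) = (g : G ⧸ H) := Quotient.out_eq' _
    rw [QuotientGroup.eq] at h1
    have h2 := hconst (g : G ⧸ H).out ⟨_, h1⟩
    simp only [mul_inv_cancel_left] at h2
    exact h2.symm
  letI : Fintype (G ⧸ H) := Subgroup.fintypeQuotientOfFiniteIndex
  set a : A := ∑ c : G ⧸ H, F c with ha
  have hkey : ∀ g : G, g • a = a - H.index • f' g := by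
    intro g
    have h1 : ∀ c : G ⧸ H, g • F c = F (g • c) - f' g := by
      intro c
      induction c using QuotientGroup.induction_on with
      | H y =>
        have : (g • (y : G ⧸ H)) = ((g * y : G) : G ⧸ H) := rfl
        rw [this, hF, hF, hf' g y]
        abel
    rw [ha, Finset.smul_sum, Finset.sum_congr rfl (fun c _ => h1 c), Finset.sum_sub_distrib,
      Finset.sum_const, Finset.card_univ]
    congr 1
    · exact Equiv.sum_comp (MulAction.toPerm g : G ⧸ H ≃ G ⧸ H) F
    · rw [Subgroup.index_eq_card, Nat.card_eq_fintype_card]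
  refine ⟨H.index • x - a, fun g => ?_⟩
  have h2 : H.index • f' g = H.index • f g - (H.index • (g • x) - H.index • x) := by
    rw [hf'def, nsmul_sub, nsmul_sub]
  have h3 : g • (H.index • x) = H.index • (g • x) := by
    rw [← natCast_zsmul, ← natCast_zsmul, smul_comm]
  show g • (H.index • x - a) - (H.index • x - a) = H.index • f g
  rw [smul_sub, hkey g, h3, h2]
  abel

end Fermat.Agent.S55.H119
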